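import Mathlib
import Fermat.Agent.S59.MFree.Spec
import Fermat.Agent.S41.H460.DictA
import Fermat.Agent.S41.H585.PDLift
import Fermat.Agent.S41.H232.PDTransfer

/-!
# S59 / M-FREE (helper761): the diamond operators in the Manin model

* `finiteIndex_kerSub` : `ker κ` has finite index in `SL(2,ℤ)`;
* `rmul κ g` : right multiplication by `g ∈ Γ` on `X' = SL(2,ℤ) ⧸ ker κ`;
* `isManinRep_conjAct` : if `m` represents `φ`, then `m ∘ rmul g` represents `conjAct κ g φ`;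
* `isManinRep_zero`, `isManinRep_sum` : linearity for finite sums;
* `eq_of_isManinRep` : two classes with the same Manin symbol are equal.
-/

set_option autoImplicit false

namespace Fermat.Agent.S59.MFree.H761

open CongruenceSubgroup Matrix.SpecialLinearGroup ModularGroup
open Fermat.Agent.S41.Spec Fermat.Agent.S59.MFree
open scoped MatrixGroups

universe u

section Basic

variable {Γ : Subgroup SL(2, ℤ)} {D : Type*} [Group D] (κ : Γ →* D)

theorem finiteIndex_kerSub [Γ.FiniteIndex] [Finite D] : (kerSub κ).FiniteIndex := by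
  constructor
  have h1 : (kerSub κ).index = κ.ker.index * Γ.index := by
    unfold kerSub
    rw [Subgroup.index_map_subtype]
  rw [h1]
  have h2 : κ.ker.index ≠ 0 := by
    rw [Subgroup.index_ker]
    exact Nat.card_pos.ne'
  exact Nat.mul_ne_zero h2 Subgroup.FiniteIndex.index_ne_zero

/-- Right multiplication by `g ∈ Γ` on `X' = SL(2,ℤ) ⧸ ker κ`. -/
def rmul (g : Γ) : SL(2, ℤ) ⧸ kerSub κ → SL(2, ℤ) ⧸ kerSub κ :=
  Quotient.map' (fun h => h * (g : SL(2, ℤ))) (by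
    intro a b hab
    rw [QuotientGroup.leftRel_apply] at hab ⊢
    have := conj_mem_kerSub κ g hab
    have e : (a * (g : SL(2, ℤ)))⁻¹ * (b * (g : SL(2, ℤ))) = (g : SL(2, ℤ))⁻¹ * (a⁻¹ * b) * g := by
      group
    rw [e]
    exact this)

@[simp] theorem rmul_mk (g : Γ) (h : SL(2, ℤ)) :
    rmul κ g (h : SL(2, ℤ) ⧸ kerSub κ) = ((h * (g : SL(2, ℤ)) : SL(2, ℤ)) : SL(2, ℤ) ⧸ kerSub κ) :=
  rfl

theorem rmul_smul (g : Γ) (a : SL(2, ℤ)) (x : SL(2, ℤ) ⧸ kerSub κ) :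
    rmul κ g (a • x) = a • rmul κ g x := by
  induction x using QuotientGroup.induction_on with
  | H h =>
    show rmul κ g ((a * h : SL(2, ℤ)) : SL(2, ℤ) ⧸ kerSub κ) = a • rmul κ g (h : SL(2, ℤ) ⧸ kerSub κ)
    rw [rmul_mk, rmul_mk, mul_assoc]
    rfl

theorem rmul_mul (g g' : Γ) (x : SL(2, ℤ) ⧸ kerSub κ) :
    rmul κ (g * g') x = rmul κ g' (rmul κ g x) := by
  induction x using QuotientGroup.induction_on with
  | H h =>
    rw [rmul_mk, rmul_mk, rmul_mk, Subgroup.coe_mul, mul_assoc]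

theorem rmul_one (x : SL(2, ℤ) ⧸ kerSub κ) : rmul κ 1 x = x := by
  induction x using QuotientGroup.induction_on with
  | H h =>
    rw [rmul_mk, Subgroup.coe_one, mul_one]

theorem rmul_inv_rmul (g : Γ) (x : SL(2, ℤ) ⧸ kerSub κ) : rmul κ g⁻¹ (rmul κ g x) = x := by
  rw [← rmul_mul, mul_inv_cancel, rmul_one]

theorem rmul_rmul_inv (g : Γ) (x : SL(2, ℤ) ⧸ kerSub κ) : rmul κ g (rmul κ g⁻¹ x) = x := by
  rw [← rmul_mul, inv_mul_cancel, rmul_one]

theorem rmul_injective (g : Γ) : Function.Injective (rmul κ g) :=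
  Function.LeftInverse.injective (rmul_inv_rmul κ g)

/-- `rmul` only depends on the class mod `ker κ`. -/
theorem rmul_eq_of_mem (g : Γ) (hg : κ g = 1) (x : SL(2, ℤ) ⧸ kerSub κ) : rmul κ g x = x := by
  induction x using QuotientGroup.induction_on with
  | H h =>
    rw [rmul_mk]
    apply QuotientGroup.eq.mpr
    have e : (h * (g : SL(2, ℤ)))⁻¹ * h = ((g : SL(2, ℤ)))⁻¹ := by group
    rw [e]
    exact (kerSub κ).inv_mem (mem_kerSub.mpr ⟨g.2, hg⟩)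

/-- The projection `X' → X` is invariant under `rmul`. -/
theorem quotMap_rmul (g : Γ) (x : SL(2, ℤ) ⧸ kerSub κ) :
    Subgroup.quotientMapOfLE (kerSub_le κ) (rmul κ g x) = Subgroup.quotientMapOfLE (kerSub_le κ) x := by
  induction x using QuotientGroup.induction_on with
  | H h =>
    rw [rmul_mk]
    show ((h * (g : SL(2, ℤ)) : SL(2, ℤ)) : SL(2, ℤ) ⧸ Γ) = ((h : SL(2, ℤ)) : SL(2, ℤ) ⧸ Γ)
    apply QuotientGroup.eq.mpr
    have e : (h * (g : SL(2, ℤ)))⁻¹ * h = ((g : SL(2, ℤ)))⁻¹ := by group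
    rw [e]
    exact Γ.inv_mem g.2

/-- Two points of `X'` with the same image in `X` differ by `rmul g`. -/
theorem exists_rmul_eq {x y : SL(2, ℤ) ⧸ kerSub κ}
    (h : Subgroup.quotientMapOfLE (kerSub_le κ) x = Subgroup.quotientMapOfLE (kerSub_le κ) y) :
    ∃ g : Γ, rmul κ g x = y := by
  induction x using QuotientGroup.induction_on with
  | H a =>
    induction y using QuotientGroup.induction_on with
    | H b =>
      have h1 : ((a : SL(2, ℤ)) : SL(2, ℤ) ⧸ Γ) = ((b : SL(2, ℤ)) : SL(2, ℤ) ⧸ Γ) := h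
      have h2 : a⁻¹ * b ∈ Γ := QuotientGroup.eq.mp h1
      refine ⟨⟨a⁻¹ * b, h2⟩, ?_⟩
      rw [rmul_mk]
      simp

/-- `rmul g x = x` forces `g ∈ ker κ`. -/
theorem mem_ker_of_rmul_eq {g : Γ} {x : SL(2, ℤ) ⧸ kerSub κ} (h : rmul κ g x = x) : κ g = 1 := by
  induction x using QuotientGroup.induction_on with
  | H a =>
    rw [rmul_mk] at h
    have h2 : (a * (g : SL(2, ℤ)))⁻¹ * a ∈ kerSub κ := QuotientGroup.eq.mp h
    have e : (a * (g : SL(2, ℤ)))⁻¹ * a = ((g : SL(2, ℤ)))⁻¹ := by group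
    rw [e] at h2
    obtain ⟨h3, h4⟩ := mem_kerSub.mp h2
    have h5 : (⟨((g : SL(2, ℤ)))⁻¹, h3⟩ : Γ) = g⁻¹ := rfl
    rw [h5, map_inv, inv_eq_one] at h4
    exact h4

end Basic

section Conj

variable {Γ : Subgroup SL(2, ℤ)} {D : Type*} [Group D] (κ : Γ →* D)
variable {A : Type*} [AddCommGroup A]

/-- (CONJ) the diamond operators in the Manin model. -/
theorem isManinRep_conjAct (g : Γ) {φ : Additive (kerSub κ) →+ A} {m : SL(2, ℤ) ⧸ kerSub κ → A}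
    (h : IsManinRep (kerSub κ) φ m) :
    IsManinRep (kerSub κ) (conjAct κ g φ) (fun x => m (rmul κ g x)) := by
  obtain ⟨f, ⟨hcoc, hS, hU⟩, hφ⟩ := h
  refine ⟨fun a x => f a (rmul κ g x), ⟨?_, ?_, ?_⟩, ?_⟩
  · intro a b x
    show f (a * b) (rmul κ g x) = f b (rmul κ g x) + f a (rmul κ g (b • x))
    rw [rmul_smul, hcoc]
  · intro x
    exact hS _
  · intro x
    show f (S * T) (rmul κ g x) = m (rmul κ g ((S * T) • x)) - m (rmul κ g x)
    rw [rmul_smul, hU]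
  · intro γ
    show φ (Additive.ofMul (conjKer κ g γ)) =
      f (γ : SL(2, ℤ)) (rmul κ g ((1 : SL(2, ℤ)) : SL(2, ℤ) ⧸ kerSub κ))
    rw [hφ, rmul_mk, one_mul]
    -- `f (g⁻¹ γ g) base = f γ (g • base)`
    have hbase : (((g : SL(2, ℤ)) : SL(2, ℤ)) : SL(2, ℤ) ⧸ kerSub κ) =
        (g : SL(2, ℤ)) • (((1 : SL(2, ℤ)) : SL(2, ℤ)) : SL(2, ℤ) ⧸ kerSub κ) := by
      show _ = (((g : SL(2, ℤ)) * 1 : SL(2, ℤ)) : SL(2, ℤ) ⧸ kerSub κ)
      rw [mul_one]
    set k : SL(2, ℤ) := ((conjKer κ g γ : kerSub κ) : SL(2, ℤ)) with hk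
    have hk' : k = (g : SL(2, ℤ))⁻¹ * γ * g := rfl
    have hkfix : k • (((1 : SL(2, ℤ)) : SL(2, ℤ)) : SL(2, ℤ) ⧸ kerSub κ) =
        (((1 : SL(2, ℤ)) : SL(2, ℤ)) : SL(2, ℤ) ⧸ kerSub κ) := by
      show (((k * 1 : SL(2, ℤ)) : SL(2, ℤ)) : SL(2, ℤ) ⧸ kerSub κ) = _
      rw [mul_one]
      apply QuotientGroup.eq.mpr
      rw [mul_one]
      exact (kerSub κ).inv_mem (conjKer κ g γ).2
    have e1 : (γ : SL(2, ℤ)) * g = g * k := by rw [hk']; group
    have c1 := hcoc (γ : SL(2, ℤ)) (g : SL(2, ℤ)) (((1 : SL(2, ℤ)) : SL(2, ℤ)) : SL(2, ℤ) ⧸ kerSub κ)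
    have c2 := hcoc (g : SL(2, ℤ)) k (((1 : SL(2, ℤ)) : SL(2, ℤ)) : SL(2, ℤ) ⧸ kerSub κ)
    rw [hkfix] at c2
    rw [e1, c2] at c1
    rw [hbase]
    have c3 : f k (((1 : SL(2, ℤ)) : SL(2, ℤ)) : SL(2, ℤ) ⧸ kerSub κ) =
        f (γ : SL(2, ℤ)) ((g : SL(2, ℤ)) • (((1 : SL(2, ℤ)) : SL(2, ℤ)) : SL(2, ℤ) ⧸ kerSub κ)) := by
      have := c1
      -- c1 : f k base + f g base = f g base + f γ (g • base)
      exact add_right_cancel (b := f (g : SL(2, ℤ))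
        (((1 : SL(2, ℤ)) : SL(2, ℤ)) : SL(2, ℤ) ⧸ kerSub κ)) (by rw [this, add_comm])
    exact c3

end Conj

section Linear

variable {Γ : Subgroup SL(2, ℤ)} [Γ.FiniteIndex]

/-- The zero class is represented by the zero symbol. -/
theorem isManinRep_zero (hneg : (-1 : SL(2, ℤ)) ∈ Γ) (A : Type u) [AddCommGroup A] :
    IsManinRep Γ (0 : Additive Γ →+ A) (0 : SL(2, ℤ) ⧸ Γ → A) := by
  obtain ⟨φ, hφ⟩ := Fermat.Agent.S41.H585.maninRepRealize.{u} Γ hneg A (0 : SL(2, ℤ) ⧸ Γ → A)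
  have h0 : φ = 0 := Fermat.Agent.S41.H460.maninRepInvariant.{u} Γ hneg A φ 0 hφ
    ⟨0, 0, fun _ => rfl, fun _ => rfl, (add_zero 0).symm⟩
  rwa [h0] at hφ

/-- Two classes with the same Manin symbol are equal. -/
theorem eq_of_isManinRep (hneg : (-1 : SL(2, ℤ)) ∈ Γ) {A : Type u} [AddCommGroup A]
    {φ ψ : Additive Γ →+ A} {m : SL(2, ℤ) ⧸ Γ → A} (h1 : IsManinRep Γ φ m)
    (h2 : IsManinRep Γ ψ m) : φ = ψ := by
  have h3 := (Fermat.Agent.S41.H460.maninRepLinear.{u} Γ A A (AddMonoidHom.id A) φ ψ m m h1 h2).2.1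
  rw [sub_self] at h3
  have h0 : φ - ψ = 0 := Fermat.Agent.S41.H460.maninRepInvariant.{u} Γ hneg A (φ - ψ) 0 h3
    ⟨0, 0, fun _ => rfl, fun _ => rfl, (add_zero 0).symm⟩
  exact sub_eq_zero.mp h0

omit [Γ.FiniteIndex] in
theorem isManinRep_add {A : Type u} [AddCommGroup A]
    {φ ψ : Additive Γ →+ A} {m m' : SL(2, ℤ) ⧸ Γ → A} (h1 : IsManinRep Γ φ m)
    (h2 : IsManinRep Γ ψ m') : IsManinRep Γ (φ + ψ) (m + m') :=
  (Fermat.Agent.S41.H460.maninRepLinear.{u} Γ A A (AddMonoidHom.id A) φ ψ m m' h1 h2).1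

omit [Γ.FiniteIndex] in
theorem isManinRep_sub {A : Type u} [AddCommGroup A]
    {φ ψ : Additive Γ →+ A} {m m' : SL(2, ℤ) ⧸ Γ → A} (h1 : IsManinRep Γ φ m)
    (h2 : IsManinRep Γ ψ m') : IsManinRep Γ (φ - ψ) (m - m') :=
  (Fermat.Agent.S41.H460.maninRepLinear.{u} Γ A A (AddMonoidHom.id A) φ ψ m m' h1 h2).2.1

theorem isManinRep_sum (hneg : (-1 : SL(2, ℤ)) ∈ Γ) {A : Type u} [AddCommGroup A] {ι : Type*}
    (s : Finset ι) (φ : ι → (Additive Γ →+ A)) (m : ι → SL(2, ℤ) ⧸ Γ → A)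
    (h : ∀ i ∈ s, IsManinRep Γ (φ i) (m i)) :
    IsManinRep Γ (∑ i ∈ s, φ i) (∑ i ∈ s, m i) := by
  classical
  induction s using Finset.induction_on with
  | empty =>
    simp only [Finset.sum_empty]
    exact isManinRep_zero hneg A
  | insert a s ha ih =>
    rw [Finset.sum_insert ha, Finset.sum_insert ha]
    exact isManinRep_add (h a (Finset.mem_insert_self a s))
      (ih fun i hi => h i (Finset.mem_insert_of_mem hi))

end Linear

end Fermat.Agent.S59.MFree.H761
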