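import Mathlib
import Fermat.Agent.S59.MFree.Spec
import Fermat.Agent.S59.MFree.H57.Norm
import Fermat.Agent.S59.MFree.H761.ManinConj

/-!
# S59 / M-FREE, assembly ASM1 (helper761): `FreeAbsOfLeavesStatement`

`freeAbs_of_leaves : KerCor → CorSurj → ResCor → CorRes → CorConj → NormCriterion → FreeAbsStatement`.
-/

set_option autoImplicit false

namespace Fermat.Agent.S59.MFree.H761

open CongruenceSubgroup Matrix.SpecialLinearGroup ModularGroup
open Fermat.Agent.S41.Spec Fermat.Agent.S59.MFree
open scoped MatrixGroups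

universe u

/-! ## Generalities on `Hom(G, O)` -/

section Hom

variable {O : Type*} [CommRing O]

/-- Homomorphisms to a domain of characteristic zero vanish on the elements of finite order. -/
theorem isTorsionTrivial_of_charZero [IsDomain O] [CharZero O] {G : Type*} [Group G]
    (φ : Additive G →+ O) : IsTorsionTrivial φ := by
  intro γ hγ
  obtain ⟨n, hn, hn'⟩ := isOfFinOrder_iff_pow_eq_one.mp hγ
  have h1 : n • φ (Additive.ofMul γ) = 0 := by
    rw [← map_nsmul, ← ofMul_pow, hn', ofMul_one, map_zero]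
  rw [nsmul_eq_mul] at h1
  rcases mul_eq_zero.mp h1 with h | h
  · exact absurd (Nat.cast_eq_zero.mp h) hn.ne'
  · exact h

theorem eq_zero_of_nsmul_eq_zero [IsDomain O] [CharZero O] {G : Type*} [Group G] {n : ℕ}
    (hn : n ≠ 0) {φ : Additive G →+ O} (h : n • φ = 0) : φ = 0 := by
  refine AddMonoidHom.ext fun g => ?_
  have h1 : n • φ g = 0 := by
    rw [← AddMonoidHom.smul_apply, h]
    rfl
  rw [nsmul_eq_mul] at h1
  rcases mul_eq_zero.mp h1 with h | h
  · exact absurd (Nat.cast_eq_zero.mp h) hn
  · exact h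

/-- A module which embeds into a finite power of a PID is finite and free. -/
theorem finite_free_of_injective [IsDomain O] [IsPrincipalIdealRing O] {V ι : Type*} [Finite ι]
    [AddCommGroup V] [Module O V] (f : V →ₗ[O] (ι → O)) (hf : Function.Injective f) :
    Module.Finite O V ∧ Module.Free O V := by
  let eqv : V ≃ₗ[O] LinearMap.range f := LinearEquiv.ofInjective f hf
  have h1 : Module.Finite O (LinearMap.range f) := inferInstance
  have h2 : Module.Free O (LinearMap.range f) := inferInstance
  exact ⟨Module.Finite.equiv eqv.symm, Module.Free.of_equiv eqv.symm⟩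

/-- Evaluation of homomorphisms on a set. -/
def evalOn {G : Type*} [Group G] (S : Set G) : (Additive G →+ O) →ₗ[O] (S → O) where
  toFun φ := fun s => φ (Additive.ofMul (s : G))
  map_add' _ _ := rfl
  map_smul' _ _ := rfl

theorem evalOn_injective {G : Type*} [Group G] (S : Set G) (hS : Subgroup.closure S = ⊤) :
    Function.Injective (evalOn (O := O) S) := by
  intro φ ψ h
  refine AddMonoidHom.ext fun g' => ?_
  obtain ⟨g, rfl⟩ : ∃ g : G, Additive.ofMul g = g' := ⟨Additive.toMul g', rfl⟩
  have hg : g ∈ Subgroup.closure S := by rw [hS]; trivial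
  induction hg using Subgroup.closure_induction with
  | mem x hx => exact congrFun h ⟨x, hx⟩
  | one => rw [ofMul_one, map_zero, map_zero]
  | mul x y _ _ hx hy => rw [ofMul_mul, map_add, map_add, hx, hy]
  | inv x _ hx => rw [ofMul_inv, map_neg, map_neg, hx]

theorem fg_SL2Z_h761 : Group.FG SL(2, ℤ) :=
  Group.fg_iff.mpr ⟨{S, T}, _root_.SpecialLinearGroup.SL2Z_generators, Set.toFinite _⟩

/-- Submodules of `Hom(Γ', O)` are finite free, `Γ'` of finite index in `SL(2,ℤ)`, `O` a PID. -/
theorem finite_free_submodule [IsDomain O] [IsPrincipalIdealRing O] (Γ' : Subgroup SL(2, ℤ))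
    [Γ'.FiniteIndex] (V : Submodule O (Additive Γ' →+ O)) :
    Module.Finite O V ∧ Module.Free O V := by
  have := fg_SL2Z_h761
  have : Group.FG Γ' := Subgroup.fg_of_index_ne_zero Γ'
  obtain ⟨S, hS, hfin⟩ := Group.fg_iff.mp this
  have : Finite S := hfin
  refine finite_free_of_injective (V := V) (ι := S) ((evalOn (O := O) S).comp V.subtype) ?_
  exact (evalOn_injective S hS).comp Subtype.val_injective

end Hom

/-! ## The diamond operators as linear maps -/

section Lin

variable {Γ : Subgroup SL(2, ℤ)} {D : Type*} [Group D] (κ : Γ →* D) {O : Type*} [CommRing O]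

/-- `conjAct κ g` as an `O`-linear map. -/
def conjL (g : Γ) : (Additive (kerSub κ) →+ O) →ₗ[O] (Additive (kerSub κ) →+ O) where
  toFun := conjAct κ g
  map_add' _ _ := rfl
  map_smul' _ _ := rfl

@[simp] theorem conjL_apply (g : Γ) (x : Additive (kerSub κ) →+ O) : conjL κ g x = conjAct κ g x := rfl

theorem conjAct_mul {A : Type*} [AddCommGroup A] (g g' : Γ) (x : Additive (kerSub κ) →+ A) :
    conjAct κ (g * g') x = conjAct κ g (conjAct κ g' x) := by
  refine AddMonoidHom.ext fun h' => ?_
  obtain ⟨h, rfl⟩ : ∃ h : kerSub κ, Additive.ofMul h = h' := ⟨Additive.toMul h', rfl⟩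
  rw [conjAct_apply, conjAct_apply, conjAct_apply]
  have e1 : conjKer κ (g * g') h = conjKer κ g' (conjKer κ g h) :=
    Subtype.ext (by simp only [conjKer_coe, Subgroup.coe_mul, mul_inv_rev, mul_assoc])
  rw [e1]

theorem conjAct_one {A : Type*} [AddCommGroup A] (x : Additive (kerSub κ) →+ A) :
    conjAct κ 1 x = x := by
  refine AddMonoidHom.ext fun h' => ?_
  obtain ⟨h, rfl⟩ : ∃ h : kerSub κ, Additive.ofMul h = h' := ⟨Additive.toMul h', rfl⟩
  rw [conjAct_apply]
  have e1 : conjKer κ 1 h = h :=
    Subtype.ext (by simp only [conjKer_coe, Subgroup.coe_one, inv_one, one_mul, mul_one])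
  rw [e1]

theorem res_nsmul {A : Type*} [AddCommGroup A] (n : ℕ) (y : Additive Γ →+ A) :
    res κ (n • y) = n • res κ y := rfl

end Lin

/-! ## Assembly -/

section Asm

variable {Γ : Subgroup SL(2, ℤ)} {D : Type} [Group D] [Fintype D] (κ : Γ →* D)
variable {O : Type u} [CommRing O]

/-- The span of the `g • y - y`, `y ∈ e H`. -/
def augSpan (e : (Additive (kerSub κ) →+ O) →ₗ[O] (Additive (kerSub κ) →+ O)) :
    Submodule O (Additive (kerSub κ) →+ O) :=
  Submodule.span O {w | ∃ (g : Γ) (y : Additive (kerSub κ) →+ O), e y = y ∧ w = conjAct κ g y - y}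

omit [Fintype D] in
theorem e_mem_augSpan (e : (Additive (kerSub κ) →+ O) →ₗ[O] (Additive (kerSub κ) →+ O))
    (he : ∀ x, e (e x) = e x) (hec : ∀ (g : Γ) x, e (conjAct κ g x) = conjAct κ g (e x))
    {w : Additive (kerSub κ) →+ O} (hw : w ∈ augSub κ O) : e w ∈ augSpan κ e := by
  unfold augSub at hw
  induction hw using AddSubgroup.closure_induction with
  | mem x hx =>
    obtain ⟨g, y, -, rfl⟩ := hx
    rw [map_sub, hec]
    exact Submodule.subset_span ⟨g, e y, he y, rfl⟩
  | zero => rw [map_zero]; exact Submodule.zero_mem _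
  | add x y _ _ hx hy => rw [map_add]; exact Submodule.add_mem _ hx hy
  | neg x _ hx => rw [map_neg]; exact Submodule.neg_mem _ hx

end Asm

/-- **ASM1.** -/
theorem freeAbs_of_leaves : FreeAbsOfLeavesStatement.{u} := by
  intro hA hB hN1 hN2 _hN3 hE p _ Γ _ D _ _ κ hκ hcard hneg hell O _ _ _ _ hp e t c he het hec htc
    hEis hsurj hinj
  classical
  have hfi := finiteIndex_kerSub κ
  choose s hs using hκ
  have hκsurj : Function.Surjective κ := fun d => ⟨s d, hs d⟩
  have hcardne : Fintype.card D ≠ 0 := Fintype.card_ne_zero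
  -- conjugation by `g` is conjugation by `s (κ g)`
  have hcongr : ∀ (g : Γ) (x : Additive (kerSub κ) →+ O), conjAct κ (s (κ g)) x = conjAct κ g x :=
    fun g x => H57.conjAct_congr57 κ x (hs (κ g)).symm
  -- the norm
  let N : (Additive (kerSub κ) →+ O) →ₗ[O] (Additive (kerSub κ) →+ O) := ∑ d, conjL κ (s d)
  have hN : ∀ x, N x = ∑ d, conjAct κ (s d) x := by
    intro x
    show (∑ d, conjL κ (s d)) x = _
    rw [LinearMap.sum_apply]
    rfl
  have hNres : ∀ x, res κ (cor κ x) = N x := fun x => by rw [hN]; exact hN1 Γ D κ s hs O x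
  have hcor0 : cor κ (0 : Additive (kerSub κ) →+ O) = 0 := by
    have := hN2 Γ D κ hκsurj O (0 : Additive Γ →+ O)
    rw [smul_zero] at this
    exact this
  have hresinj : ∀ y : Additive Γ →+ O, res κ y = 0 → y = 0 := by
    intro y hy
    have h1 := hN2 Γ D κ hκsurj O y
    rw [hy, hcor0] at h1
    exact eq_zero_of_nsmul_eq_zero hcardne h1.symm
  have heN : ∀ x, e (N x) = N (e x) := by
    intro x
    rw [hN, hN, map_sum]
    exact Finset.sum_congr rfl fun d _ => hec _ _
  have htN : ∀ x, t (N x) = N (t x) := by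
    intro x
    rw [hN, hN, map_sum]
    exact Finset.sum_congr rfl fun d _ => htc _ _
  -- control
  have hctrl : ∀ x, e x = x → cor κ x = 0 → x ∈ augSpan κ e := by
    intro x hx hcx
    have h1 := hA Γ D κ hneg hell O x (isTorsionTrivial_of_charZero x) hcx
    have h2 := e_mem_augSpan κ e he hec h1
    rwa [hx] at h2
  have hcorsurj : ∀ y : Additive Γ →+ O, ∃ x : Additive (kerSub κ) →+ O, cor κ x = y := by
    intro y
    obtain ⟨x, -, hx⟩ := hB Γ D κ hneg O y (isTorsionTrivial_of_charZero y)
    exact ⟨x, hx⟩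
  refine ⟨?_, hctrl, hcorsurj⟩
  -- the module `V = e H` and the representation of `D`
  let V : Submodule O (Additive (kerSub κ) →+ O) := LinearMap.range e
  have hVmem : ∀ x, x ∈ V ↔ e x = x := by
    intro x
    constructor
    · rintro ⟨y, rfl⟩
      exact he y
    · intro h
      exact ⟨x, h⟩
  have hVstab : ∀ (g : Γ), ∀ x ∈ V, conjL κ g x ∈ V := by
    intro g x hx
    rw [hVmem] at hx ⊢
    rw [conjL_apply, hec, hx]
  obtain ⟨hfin, hfree⟩ := finite_free_submodule (O := O) (kerSub κ) V
  let ρ : Representation O D V :=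
    { toFun := fun d => (conjL κ (s d)).restrict (hVstab (s d))
      map_one' := by
        apply LinearMap.ext
        intro x
        apply Subtype.ext
        show conjAct κ (s 1) (x : Additive (kerSub κ) →+ O) = x
        have h1 : κ (s 1) = κ (1 : Γ) := by rw [hs, map_one]
        rw [H57.conjAct_congr57 κ _ h1.symm, conjAct_one]
      map_mul' := by
        intro d d'
        apply LinearMap.ext
        intro x
        apply Subtype.ext
        show conjAct κ (s (d * d')) (x : Additive (kerSub κ) →+ O) =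
          conjAct κ (s d) (conjAct κ (s d') (x : Additive (kerSub κ) →+ O))
        have h1 : κ (s (d * d')) = κ (s d * s d') := by rw [hs, map_mul, hs, hs]
        rw [H57.conjAct_congr57 κ _ h1.symm, conjAct_mul] }
  have hρ : ∀ (d : D) (x : V), ((ρ d x : V) : Additive (kerSub κ) →+ O) = conjAct κ (s d) x :=
    fun _ _ => rfl
  have hsumρ : ∀ x : V, ((∑ d, ρ d x : V) : Additive (kerSub κ) →+ O) = N x := by
    intro x
    rw [hN]
    rw [AddSubmonoidClass.coe_finsetSum]
    rfl
  -- hypothesis (a) of the norm criterion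
  have ha : ∀ x : V, (∀ d, ρ d x = x) → ∃ z, x = ∑ d, ρ d z := by
    intro x hx
    have hxe : e (x : Additive (kerSub κ) →+ O) = x := (hVmem _).mp x.2
    have hxinv : ∀ g : Γ, conjAct κ g (x : Additive (kerSub κ) →+ O) = x := by
      intro g
      rw [← hcongr]
      exact congrArg Subtype.val (hx (κ g))
    obtain ⟨y, hy⟩ := hEis x hxinv
    set w : Additive (kerSub κ) →+ O := t x - c • (x : Additive (kerSub κ) →+ O) with hw
    have hwinv : ∀ g : Γ, conjAct κ g w = w := by
      intro g
      have : conjAct κ g w = conjL κ g w := rfl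
      rw [this, hw, map_sub, map_smul, conjL_apply, conjL_apply, ← htc, hxinv]
    have h1 : res κ (cor κ w) = Fintype.card D • w := by
      rw [hNres, hN, Finset.sum_congr rfl fun d _ => hwinv (s d), Finset.sum_const,
        Finset.card_univ]
    have h2 : Fintype.card D • (w - res κ y) = 0 := by
      rw [smul_sub, ← h1, hy, res_nsmul, sub_self]
    have h3 : w = res κ y := sub_eq_zero.mp (eq_zero_of_nsmul_eq_zero hcardne h2)
    obtain ⟨z, hz⟩ := hcorsurj y
    have h4 : w = N (e z) := by
      have h5 : e w = w := by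
        rw [hw, map_sub, map_smul, het, hxe]
      rw [← h5, h3, ← hz, hNres, heN]
    obtain ⟨z', hz'e, hz'⟩ := hsurj (e z) (he z)
    have h6 : t (x - N z') - c • ((x : Additive (kerSub κ) →+ O) - N z') = 0 := by
      have : t (N z') - c • N z' = N (e z) := by
        rw [htN, ← map_smul, ← map_sub, hz']
      rw [map_sub, smul_sub]
      have h7 : t (x : Additive (kerSub κ) →+ O) - c • (x : Additive (kerSub κ) →+ O) = N (e z) := h4
      rw [show t (x : Additive (kerSub κ) →+ O) - t (N z') -
        (c • (x : Additive (kerSub κ) →+ O) - c • N z') =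
        (t (x : Additive (kerSub κ) →+ O) - c • (x : Additive (kerSub κ) →+ O)) -
          (t (N z') - c • N z') by abel, h7, this, sub_self]
    have h8 : e ((x : Additive (kerSub κ) →+ O) - N z') = x - N z' := by
      rw [map_sub, hxe, heN, hz'e]
    have h9 := hinj _ h8 h6
    refine ⟨⟨z', (hVmem _).mpr hz'e⟩, ?_⟩
    apply Subtype.ext
    rw [hsumρ]
    exact sub_eq_zero.mp h9
  -- hypothesis (b) of the norm criterion
  have hb : ∀ x : V, ∑ d, ρ d x = 0 → x ∈ Submodule.span O {w : V | ∃ d y, w = ρ d y - y} := by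
    intro x hx
    have hxe : e (x : Additive (kerSub κ) →+ O) = x := (hVmem _).mp x.2
    have h1 : N (x : Additive (kerSub κ) →+ O) = 0 := by
      rw [← hsumρ, hx]
      rfl
    have h2 : cor κ (x : Additive (kerSub κ) →+ O) = 0 := hresinj _ (by rw [hNres, h1])
    have h3 := hctrl x hxe h2
    -- transfer to `V`
    have h4 : augSpan κ e ≤ (Submodule.span O {w : V | ∃ d y, w = ρ d y - y}).map V.subtype := by
      unfold augSpan
      rw [Submodule.span_le]
      rintro _ ⟨g, y, hy, rfl⟩
      refine ⟨ρ (κ g) ⟨y, (hVmem _).mpr hy⟩ - ⟨y, (hVmem _).mpr hy⟩,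
        Submodule.subset_span ⟨κ g, ⟨y, (hVmem _).mpr hy⟩, rfl⟩, ?_⟩
      show conjAct κ (s (κ g)) y - y = conjAct κ g y - y
      rw [hcongr]
    obtain ⟨v, hv, hvx⟩ := h4 h3
    have : v = x := Subtype.ext hvx
    rwa [this] at hv
  obtain ⟨n, b, hli, hspan⟩ := hE p O hp D hcard V ρ ha hb
  refine ⟨n, fun i => (b i : Additive (kerSub κ) →+ O), fun i => (hVmem _).mp (b i).2, ?_⟩
  intro s' hs'
  have hfam : (fun z : D × Fin n => conjAct κ (s' z.1) (b z.2 : Additive (kerSub κ) →+ O)) =
      fun z : D × Fin n => V.subtype (ρ z.1 (b z.2)) := by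
    funext z
    show _ = conjAct κ (s z.1) (b z.2 : Additive (kerSub κ) →+ O)
    exact H57.conjAct_congr57 κ _ (by rw [hs, hs'])
  rw [hfam]
  refine ⟨hli.map' V.subtype (Submodule.ker_subtype V), ?_⟩
  intro x hx
  have h1 : (⟨x, (hVmem x).mpr hx⟩ : V) ∈
      Submodule.span O (Set.range fun z : D × Fin n => ρ z.1 (b z.2)) := by
    rw [hspan]
    trivial
  have h2 := Submodule.mem_map_of_mem (f := V.subtype) h1
  rw [Submodule.map_span, ← Set.range_comp] at h2
  exact h2

end Fermat.Agent.S59.MFree.H761
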