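import Mathlib
import Fermat.Agent.S59.MFree.H761.ManinConj

/-!
# S59 / M-FREE (helper761): sections of `X' → X` stable under a torsion element, fibres as torsors
-/

set_option autoImplicit false

namespace Fermat.Agent.S59.MFree.H761

open CongruenceSubgroup Matrix.SpecialLinearGroup ModularGroup
open Fermat.Agent.S41.Spec Fermat.Agent.S59.MFree Fermat.Agent.S41.H232
open scoped MatrixGroups

universe u

section Section

variable {Γ' Γ : Subgroup SL(2, ℤ)} (hle : Γ' ≤ Γ)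

theorem quotMap_surjective : Function.Surjective (Subgroup.quotientMapOfLE hle) := by
  intro x
  induction x using QuotientGroup.induction_on with
  | H a => exact ⟨(a : SL(2, ℤ) ⧸ Γ'), rfl⟩

theorem quotMap_zpow_smul (σ : SL(2, ℤ)) (k : ℤ) (x' : SL(2, ℤ) ⧸ Γ') :
    Subgroup.quotientMapOfLE hle (σ ^ k • x') = σ ^ k • Subgroup.quotientMapOfLE hle x' :=
  quotMap_smul hle _ _

/-- A section of `π : X' → X` commuting with `σ`, if the stabilisers of the powers of `σ` lift. -/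
theorem exists_stable_section (σ : SL(2, ℤ))
    (hstab : ∀ (k : ℤ) (x' : SL(2, ℤ) ⧸ Γ'),
      σ ^ k • Subgroup.quotientMapOfLE hle x' = Subgroup.quotientMapOfLE hle x' → σ ^ k • x' = x') :
    ∃ t : SL(2, ℤ) ⧸ Γ → SL(2, ℤ) ⧸ Γ',
      (∀ x, Subgroup.quotientMapOfLE hle (t x) = x) ∧ ∀ x, t (σ • x) = σ • t x := by
  classical
  -- the orbit relation of `σ` on `X`
  let r : Setoid (SL(2, ℤ) ⧸ Γ) :=
    { r := fun x y => ∃ k : ℤ, σ ^ k • x = y
      iseqv := by
        refine ⟨fun x => ⟨0, by simp⟩, ?_, ?_⟩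
        · rintro x y ⟨k, hk⟩
          refine ⟨-k, ?_⟩
          rw [← hk, ← mul_smul, ← zpow_add, neg_add_cancel, zpow_zero, one_smul]
        · rintro x y z ⟨k, hk⟩ ⟨l, hl⟩
          refine ⟨l + k, ?_⟩
          rw [zpow_add, mul_smul, hk, hl] }
  let rep : SL(2, ℤ) ⧸ Γ → SL(2, ℤ) ⧸ Γ := fun x => (Quotient.mk r x).out
  have hrep : ∀ x, ∃ k : ℤ, σ ^ k • rep x = x := fun x => Quotient.exact (Quotient.out_eq (Quotient.mk r x))
  have hrepσ : ∀ x, rep (σ • x) = rep x := by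
    intro x
    have : Quotient.mk r (σ • x) = Quotient.mk r x := by
      apply Quotient.sound
      exact ⟨-1, by rw [← mul_smul, zpow_neg, zpow_one, inv_mul_cancel, one_smul]⟩
    show (Quotient.mk r (σ • x)).out = (Quotient.mk r x).out
    rw [this]
  choose k hk using hrep
  choose lift hlift using quotMap_surjective hle
  refine ⟨fun x => σ ^ k x • lift (rep x), ?_, ?_⟩
  · intro x
    rw [quotMap_zpow_smul, hlift, hk]
  · intro x
    show σ ^ k (σ • x) • lift (rep (σ • x)) = σ • σ ^ k x • lift (rep x)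
    rw [hrepσ]
    have hcomm : σ ^ (k x + 1) = σ * σ ^ k x := by
      rw [add_comm, zpow_add, zpow_one]
    have h1 : σ ^ k (σ • x) • rep x = σ ^ (k x + 1) • rep x := by
      have := hk (σ • x)
      rw [hrepσ] at this
      rw [this, hcomm, mul_smul, hk]
    have h2 : σ ^ (k (σ • x) - (k x + 1)) • Subgroup.quotientMapOfLE hle (lift (rep x)) =
        Subgroup.quotientMapOfLE hle (lift (rep x)) := by
      rw [hlift, zpow_sub, mul_smul]
      rw [show σ ^ k (σ • x) • (σ ^ (k x + 1))⁻¹ • rep x =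
        (σ ^ (k x + 1))⁻¹ • σ ^ k (σ • x) • rep x by
          rw [← mul_smul, ← mul_smul]
          congr 1
          rw [← zpow_neg, ← zpow_add, ← zpow_add, add_comm]]
      rw [h1, inv_smul_smul]
    have h3 := hstab _ _ h2
    have h4 : σ ^ k (σ • x) • lift (rep x) = σ ^ (k x + 1) • lift (rep x) := by
      have : σ ^ k (σ • x) = σ ^ (k x + 1) * σ ^ (k (σ • x) - (k x + 1)) := by
        rw [← zpow_add]
        congr 1
        ring
      rw [this, mul_smul, h3]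
    rw [h4, hcomm, mul_smul]

end Section

section Stab

variable {Γ : Subgroup SL(2, ℤ)} {D : Type*} [Group D] (κ : Γ →* D)

/-- (Ell) ⇒ stabilisers of torsion elements lift from `X` to `X'`. -/
theorem smul_eq_of_ell (hell : ∀ g : Γ, IsOfFinOrder g → κ g = 1) {a : SL(2, ℤ)}
    (ha : IsOfFinOrder a) (x' : SL(2, ℤ) ⧸ kerSub κ)
    (h : a • Subgroup.quotientMapOfLE (kerSub_le κ) x' = Subgroup.quotientMapOfLE (kerSub_le κ) x') :
    a • x' = x' := by
  induction x' using QuotientGroup.induction_on with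
  | H b =>
    have h1 : (((a * b : SL(2, ℤ)) : SL(2, ℤ)) : SL(2, ℤ) ⧸ Γ) = ((b : SL(2, ℤ)) : SL(2, ℤ) ⧸ Γ) := h
    have h2 : (a * b)⁻¹ * b ∈ Γ := QuotientGroup.eq.mp h1
    have h3 : IsOfFinOrder ((a * b)⁻¹ * b) := by
      have e : (a * b)⁻¹ * b = b⁻¹ * a⁻¹ * b := by group
      rw [e]
      obtain ⟨n, hn, hn'⟩ := (isOfFinOrder_iff_pow_eq_one.mp ha.inv)
      refine isOfFinOrder_iff_pow_eq_one.mpr ⟨n, hn, ?_⟩
      have : (b⁻¹ * a⁻¹ * b) ^ n = b⁻¹ * (a⁻¹) ^ n * b := by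
        have := conj_pow (a := b⁻¹) (b := a⁻¹) (i := n)
        rw [inv_inv] at this
        exact this
      rw [this, hn']
      group
    have h4 : κ ⟨(a * b)⁻¹ * b, h2⟩ = 1 := hell ⟨_, h2⟩ (by
      have := Submonoid.isOfFinOrder_coe (H := Γ.toSubmonoid) (x := ⟨(a * b)⁻¹ * b, h2⟩)
      exact this.mp h3)
    show (((a * b : SL(2, ℤ)) : SL(2, ℤ)) : SL(2, ℤ) ⧸ kerSub κ) = ((b : SL(2, ℤ)) : SL(2, ℤ) ⧸ kerSub κ)
    exact QuotientGroup.eq.mpr (mem_kerSub.mpr ⟨h2, h4⟩)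

theorem exists_stable_section_of_ell (hell : ∀ g : Γ, IsOfFinOrder g → κ g = 1) {σ : SL(2, ℤ)}
    (hσ : IsOfFinOrder σ) :
    ∃ t : SL(2, ℤ) ⧸ Γ → SL(2, ℤ) ⧸ kerSub κ,
      (∀ x, Subgroup.quotientMapOfLE (kerSub_le κ) (t x) = x) ∧ ∀ x, t (σ • x) = σ • t x :=
  exists_stable_section (kerSub_le κ) σ fun _ x' h => smul_eq_of_ell κ hell hσ.zpow x' h

end Stab

section LiftFun

variable {Γ' Γ : Subgroup SL(2, ℤ)} (hle : Γ' ≤ Γ) {A : Type*} [AddCommGroup A]

/-- The function on `X'` supported on the section `t`, with values `n`. -/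
noncomputable def liftFun (t : SL(2, ℤ) ⧸ Γ → SL(2, ℤ) ⧸ Γ') (n : SL(2, ℤ) ⧸ Γ → A) :
    SL(2, ℤ) ⧸ Γ' → A :=
  open Classical in
  fun x' => if x' = t (Subgroup.quotientMapOfLE hle x') then n (Subgroup.quotientMapOfLE hle x') else 0

theorem pushQ_liftFun (t : SL(2, ℤ) ⧸ Γ → SL(2, ℤ) ⧸ Γ')
    (ht : ∀ x, Subgroup.quotientMapOfLE hle (t x) = x) (n : SL(2, ℤ) ⧸ Γ → A) (x : SL(2, ℤ) ⧸ Γ) :
    pushQ hle (liftFun hle t n) x = n x := by
  classical
  unfold pushQ
  have h1 : ∀ x' : SL(2, ℤ) ⧸ Γ',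
      (∑ᶠ (_ : Subgroup.quotientMapOfLE hle x' = x), liftFun hle t n x') =
        if x' = t x then n x else 0 := by
    intro x'
    rw [finsum_eq_if]
    unfold liftFun
    by_cases hx : Subgroup.quotientMapOfLE hle x' = x
    · rw [if_pos hx, hx]
    · rw [if_neg hx]
      rw [if_neg]
      rintro rfl
      exact hx (ht x)
  rw [finsum_congr h1, finsum_eq_single _ (t x) (fun y hy => if_neg hy), if_pos rfl]

theorem liftFun_smul (t : SL(2, ℤ) ⧸ Γ → SL(2, ℤ) ⧸ Γ') (σ : SL(2, ℤ))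
    (htσ : ∀ x, t (σ • x) = σ • t x) (n : SL(2, ℤ) ⧸ Γ → A) (hn : ∀ x, n (σ • x) = n x)
    (x' : SL(2, ℤ) ⧸ Γ') : liftFun hle t n (σ • x') = liftFun hle t n x' := by
  classical
  unfold liftFun
  rw [quotMap_smul, htσ, hn]
  by_cases h : x' = t (Subgroup.quotientMapOfLE hle x')
  · rw [if_pos h, if_pos (by rw [← h])]
  · rw [if_neg h, if_neg]
    intro h'
    exact h (MulAction.injective σ h')

end LiftFun

end Fermat.Agent.S59.MFree.H761
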