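import Mathlib
import Fermat.Agent.S59.MFree.H761.Section

/-!
# S59 / M-FREE, leaves (A) and (B) (helper761)

* `kerCor  : KerCorStatement`  — `ker (cor) ⊆ I_D · H(Γ', A)`;
* `corSurj : CorSurjStatement` — `cor` is onto.
-/

set_option autoImplicit false

namespace Fermat.Agent.S59.MFree.H761

open CongruenceSubgroup Matrix.SpecialLinearGroup ModularGroup
open Fermat.Agent.S41.Spec Fermat.Agent.S59.MFree Fermat.Agent.S41.H232
open scoped MatrixGroups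

universe u

section Torsor

variable {Γ : Subgroup SL(2, ℤ)} {D : Type*} [Group D] (κ : Γ →* D)

theorem finiteIndex_ker [Finite D] : κ.ker.FiniteIndex := by
  constructor
  rw [Subgroup.index_ker]
  exact Nat.card_pos.ne'

/-- The fibres of `X' → X` are torsors under `Γ ⧸ ker κ`. -/
theorem fibre_bijOn (y : SL(2, ℤ) ⧸ kerSub κ) :
    Set.BijOn (fun q : Γ ⧸ κ.ker => rmul κ q.out y) Set.univ
      {x' | Subgroup.quotientMapOfLE (kerSub_le κ) x' = Subgroup.quotientMapOfLE (kerSub_le κ) y} := by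
  refine ⟨fun q _ => quotMap_rmul κ _ y, ?_, ?_⟩
  · intro q _ q' _ h
    simp only at h
    have h1 : rmul κ (q'.out * (q.out)⁻¹) y = y := by
      rw [rmul_mul, ← h, rmul_inv_rmul]
    have h2 := mem_ker_of_rmul_eq κ h1
    rw [map_mul, map_inv, mul_inv_eq_one] at h2
    have h3 : ((q.out : Γ) : Γ ⧸ κ.ker) = ((q'.out : Γ) : Γ ⧸ κ.ker) := by
      apply QuotientGroup.eq.mpr
      rw [MonoidHom.mem_ker, map_mul, map_inv, h2, inv_mul_cancel]
    rwa [QuotientGroup.out_eq', QuotientGroup.out_eq'] at h3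
  · intro x' hx'
    obtain ⟨g, hg⟩ := exists_rmul_eq κ (x := y) (y := x') hx'.symm
    refine ⟨(g : Γ ⧸ κ.ker), Set.mem_univ _, ?_⟩
    obtain ⟨k, hk⟩ := QuotientGroup.mk_out_eq_mul κ.ker g
    simp only
    rw [hk, rmul_mul, hg]
    exact rmul_eq_of_mem κ k k.2 x'

variable {A : Type*} [AddCommGroup A]

theorem pushQ_eq_sum [Finite D] [Fintype (Γ ⧸ κ.ker)] (m : SL(2, ℤ) ⧸ kerSub κ → A)
    (y : SL(2, ℤ) ⧸ kerSub κ) :
    pushQ (kerSub_le κ) m (Subgroup.quotientMapOfLE (kerSub_le κ) y) =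
      ∑ q : Γ ⧸ κ.ker, m (rmul κ q.out y) := by
  rw [pushQ_eq]
  have h := finsum_mem_eq_of_bijOn (f := fun q : Γ ⧸ κ.ker => m (rmul κ q.out y)) (g := m)
    (fun q : Γ ⧸ κ.ker => rmul κ q.out y) (fibre_bijOn κ y) (fun _ _ => rfl)
  rw [← h, finsum_mem_univ, finsum_eq_sum_of_fintype]

/-- The component of `m` along the coset `q`, moved to the section `t`. -/
noncomputable def comp (t : SL(2, ℤ) ⧸ Γ → SL(2, ℤ) ⧸ kerSub κ) (m : SL(2, ℤ) ⧸ kerSub κ → A)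
    (q : Γ ⧸ κ.ker) : SL(2, ℤ) ⧸ kerSub κ → A :=
  open Classical in
  fun y => if y = t (Subgroup.quotientMapOfLE (kerSub_le κ) y) then m (rmul κ q.out y) else 0

theorem sum_comp_eq_zero [Finite D] [Fintype (Γ ⧸ κ.ker)]
    (t : SL(2, ℤ) ⧸ Γ → SL(2, ℤ) ⧸ kerSub κ) (m : SL(2, ℤ) ⧸ kerSub κ → A)
    (hm : ∀ x, pushQ (kerSub_le κ) m x = 0) (y : SL(2, ℤ) ⧸ kerSub κ) :
    ∑ q : Γ ⧸ κ.ker, comp κ t m q y = 0 := by
  classical
  unfold comp
  by_cases h : y = t (Subgroup.quotientMapOfLE (kerSub_le κ) y)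
  · simp only [if_pos h]
    rw [← pushQ_eq_sum, hm]
  · simp only [if_neg h, Finset.sum_const_zero]

theorem sum_comp_rmul [Finite D] [Fintype (Γ ⧸ κ.ker)]
    (t : SL(2, ℤ) ⧸ Γ → SL(2, ℤ) ⧸ kerSub κ)
    (ht : ∀ x, Subgroup.quotientMapOfLE (kerSub_le κ) (t x) = x)
    (m : SL(2, ℤ) ⧸ kerSub κ → A) (x' : SL(2, ℤ) ⧸ kerSub κ) :
    ∑ q : Γ ⧸ κ.ker, comp κ t m q (rmul κ (q.out)⁻¹ x') = m x' := by
  classical
  set y := t (Subgroup.quotientMapOfLE (kerSub_le κ) x') with hy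
  have hfib : x' ∈ {z | Subgroup.quotientMapOfLE (kerSub_le κ) z =
      Subgroup.quotientMapOfLE (kerSub_le κ) y} := by
    show Subgroup.quotientMapOfLE (kerSub_le κ) x' = Subgroup.quotientMapOfLE (kerSub_le κ) y
    rw [hy, ht]
  obtain ⟨q₀, -, hq₀⟩ := (fibre_bijOn κ y).surjOn hfib
  simp only at hq₀
  have key : ∀ q : Γ ⧸ κ.ker, comp κ t m q (rmul κ (q.out)⁻¹ x') = if q = q₀ then m x' else 0 := by
    intro q
    unfold comp
    rw [quotMap_rmul, rmul_rmul_inv, ← hy]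
    by_cases hq : q = q₀
    · rw [if_pos hq, if_pos]
      rw [hq, ← hq₀, rmul_inv_rmul]
    · rw [if_neg hq, if_neg]
      intro h
      apply hq
      apply (fibre_bijOn κ y).injOn (Set.mem_univ _) (Set.mem_univ _)
      simp only
      rw [hq₀, ← h, rmul_rmul_inv]
  rw [Finset.sum_congr rfl fun q _ => key q, Finset.sum_ite_eq' Finset.univ q₀]
  simp

end Torsor

/-- **Leaf (B)**: `cor` is onto. -/
theorem corSurj : CorSurjStatement.{u} := by
  intro Γ _ D _ _ κ hneg A _ y hy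
  have := finiteIndex_kerSub κ
  have hnegΓ : (-1 : SL(2, ℤ)) ∈ Γ := kerSub_le κ hneg
  obtain ⟨m, hm⟩ := Fermat.Agent.S41.H460.maninRepExists.{u} Γ hnegΓ A y hy
  obtain ⟨t, ht⟩ : ∃ t : SL(2, ℤ) ⧸ Γ → SL(2, ℤ) ⧸ kerSub κ,
      ∀ x, Subgroup.quotientMapOfLE (kerSub_le κ) (t x) = x := by
    choose t ht using quotMap_surjective (kerSub_le κ)
    exact ⟨t, ht⟩
  obtain ⟨x, hx⟩ := Fermat.Agent.S41.H585.maninRepRealize.{u} (kerSub κ) hneg A
    (liftFun (kerSub_le κ) t m)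
  refine ⟨x, Fermat.Agent.S41.H585.maninRepTorsionU.{u} (kerSub κ) hneg A x _ hx, ?_⟩
  have h1 := Fermat.Agent.S41.H232.maninRepCores.{u} (kerSub κ) Γ (kerSub_le κ) A x _ hx
  have h2 : (fun x => ∑ᶠ (x' : SL(2, ℤ) ⧸ kerSub κ)
      (_ : Subgroup.quotientMapOfLE (kerSub_le κ) x' = x), liftFun (kerSub_le κ) t m x') = m := by
    funext x
    exact pushQ_liftFun (kerSub_le κ) t ht m x
  rw [h2] at h1
  exact eq_of_isManinRep hnegΓ h1 hm

/-- **Leaf (A)**: `ker (cor) ⊆ I_D · H(Γ', A)`. -/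
theorem kerCor : KerCorStatement.{u} := by
  intro Γ _ D _ _ κ hneg hell A _ x hx hcor
  classical
  have := finiteIndex_kerSub κ
  have := finiteIndex_ker κ
  let _ : Fintype (Γ ⧸ κ.ker) := Subgroup.fintypeQuotientOfFiniteIndex
  have hnegΓ : (-1 : SL(2, ℤ)) ∈ Γ := kerSub_le κ hneg
  -- a Manin symbol of `x` and its push-forward
  obtain ⟨m', hm'⟩ := Fermat.Agent.S41.H460.maninRepExists.{u} (kerSub κ) hneg A x hx
  have h1 := Fermat.Agent.S41.H232.maninRepCores.{u} (kerSub κ) Γ (kerSub_le κ) A x _ hm'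
  have hcor' : transferAlong (Subgroup.inclusion (kerSub_le κ)) x = 0 := hcor
  rw [hcor'] at h1
  obtain ⟨n₁, n₂, hn₁, hn₂, hsum⟩ := Fermat.Agent.S41.H460.maninRepZero.{u} Γ hnegΓ A _ h1
  -- stable sections
  obtain ⟨t₁, ht₁, ht₁'⟩ := exists_stable_section_of_ell κ hell
    Fermat.Agent.S41.H460.isOfFinOrder_S_h460
  obtain ⟨t₂, ht₂, ht₂'⟩ := exists_stable_section_of_ell κ hell
    Fermat.Agent.S41.H460.isOfFinOrder_ST_h460
  set n₁' := liftFun (kerSub_le κ) t₁ n₁ with hn₁'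
  set n₂' := liftFun (kerSub_le κ) t₂ n₂ with hn₂'
  -- `n₁' + n₂'` represents `0`
  obtain ⟨ψ₀, hψ₀⟩ := Fermat.Agent.S41.H585.maninRepRealize.{u} (kerSub κ) hneg A (n₁' + n₂')
  have hψ₀0 : ψ₀ = 0 := Fermat.Agent.S41.H460.maninRepInvariant.{u} (kerSub κ) hneg A ψ₀ _ hψ₀
    ⟨n₁', n₂', fun x' => liftFun_smul (kerSub_le κ) t₁ S ht₁' n₁ hn₁ x',
      fun x' => liftFun_smul (kerSub_le κ) t₂ (S * T) ht₂' n₂ hn₂ x', rfl⟩
  rw [hψ₀0] at hψ₀
  -- the corrected symbol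
  set m := m' - (n₁' + n₂') with hm
  have hmrep : IsManinRep (kerSub κ) x m := by
    have := isManinRep_sub hm' hψ₀
    rwa [sub_zero] at this
  have hmpush : ∀ z, pushQ (kerSub_le κ) m z = 0 := by
    intro z
    have e1 : pushQ (kerSub_le κ) m z = pushQ (kerSub_le κ) m' z -
        (pushQ (kerSub_le κ) n₁' z + pushQ (kerSub_le κ) n₂' z) := by
      rw [hm]
      have : (m' - (n₁' + n₂')) = fun x' => m' x' - (n₁' + n₂') x' := rfl
      rw [this, pushQ_sub]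
      have : (n₁' + n₂') = fun x' => n₁' x' + n₂' x' := rfl
      rw [this, pushQ_add]
    rw [e1, hn₁', hn₂', pushQ_liftFun _ _ ht₁, pushQ_liftFun _ _ ht₂]
    have e2 : pushQ (kerSub_le κ) m' z = (n₁ + n₂) z := by
      rw [← hsum]
      rfl
    rw [e2]
    simp
  -- decomposition
  have hdec : m = ∑ q : Γ ⧸ κ.ker,
      ((fun x' => comp κ t₁ m q (rmul κ (q.out)⁻¹ x')) - comp κ t₁ m q) := by
    funext x'
    rw [Finset.sum_apply]
    simp only [Pi.sub_apply]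
    rw [Finset.sum_sub_distrib, sum_comp_rmul κ t₁ ht₁ m x', sum_comp_eq_zero κ t₁ m hmpush x',
      sub_zero]
  -- classes of the components
  have hcl : ∀ q : Γ ⧸ κ.ker, ∃ ψ : Additive (kerSub κ) →+ A, IsManinRep (kerSub κ) ψ (comp κ t₁ m q) :=
    fun q => Fermat.Agent.S41.H585.maninRepRealize.{u} (kerSub κ) hneg A _
  choose ψ hψ using hcl
  have hψtt : ∀ q, IsTorsionTrivial (ψ q) := fun q =>
    Fermat.Agent.S41.H585.maninRepTorsionU.{u} (kerSub κ) hneg A (ψ q) _ (hψ q)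
  have hrep2 : IsManinRep (kerSub κ) (∑ q : Γ ⧸ κ.ker, (conjAct κ (q.out)⁻¹ (ψ q) - ψ q))
      (∑ q : Γ ⧸ κ.ker,
        ((fun x' => comp κ t₁ m q (rmul κ (q.out)⁻¹ x')) - comp κ t₁ m q)) :=
    isManinRep_sum hneg Finset.univ _ _ fun q _ =>
      isManinRep_sub (isManinRep_conjAct κ (q.out)⁻¹ (hψ q)) (hψ q)
  rw [← hdec] at hrep2
  have hx_eq : x = ∑ q : Γ ⧸ κ.ker, (conjAct κ (q.out)⁻¹ (ψ q) - ψ q) :=
    eq_of_isManinRep hneg hmrep hrep2
  rw [hx_eq]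
  refine AddSubgroup.sum_mem _ fun q _ => AddSubgroup.subset_closure ?_
  exact ⟨(q.out)⁻¹, ψ q, hψtt q, rfl⟩

end Fermat.Agent.S59.MFree.H761
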